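import Fermat.Agent.PSEMI.LevelMp.Roots
import Fermat.Agent.PSEMI.Class.Sigma

/-!
# An automorphism of `ℂ` inducing the Frobenius of the residue field

It preserves the integral ring and raises residues to the `q`-th power; on residual series a
`q`-th power is the Frobenius of the expanded series.
-/

set_option autoImplicit false

open UpperHalfPlane CongruenceSubgroup
open scoped MatrixGroups

noncomputable section

namespace FermatAgent.BAD.New

open FermatAgent.ES (CPlace AuxLevel BSub BRing SerIn lexp lexp_eq hasLExp_lexp act mapSer GalRel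
  zetaC)
open FermatAgent.Curve.Red (ResField)
open FermatAgent.PSEMI (red coeff_red rd)
open FermatAgent.PSEMI.LevelMp (cI cO rH serIn_inf lexp_inf_level zetaC_mem)
open FermatAgent.BAD (LSub LRing mem_LRing atkin atkinL atkinMat expandL raiseL)

variable {q M m : ℕ} [hq : Fact q.Prime] [NeZero M] {P : CPlace q}

/-- An automorphism preserving the place and inducing the Frobenius on its residue field. -/
structure FrobAut (P : CPlace q) where
  /-- The automorphism. -/
  σ : ℂ ≃+* ℂ
  abv_eq : ∀ x, P.abv (σ x) = P.abv x
  frob : ∀ x, P.abv x ≤ 1 → P.abv (σ x - x ^ q) < 1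

variable (P) in
/-- The Frobenius on the coefficients of residual series. -/
def frobL : LaurentSeries (ResField P) →+* LaurentSeries (ResField P) :=
  mapSer (frobenius (ResField P) q)

/-- Frobenius on residual series raises coefficients to the `q`-th power. -/
theorem coeff_frobL (s : LaurentSeries (ResField P)) (i : ℤ) :
    (frobL P s).coeff i = s.coeff i ^ q := rfl

/-- A `q`-th power is the Frobenius of the expanded series. -/
theorem frobL_expandL (s : LaurentSeries (ResField P)) : frobL P (expandL q s) = s ^ q := by
  rw [PSEMI.pow_char_expand]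
  ext i
  rw [coeff_frobL]
  by_cases hd : (q : ℤ) ∣ i
  · obtain ⟨j, rfl⟩ := hd
    rw [BAD.expandL_coeff_mul, BAD.expandL_coeff_mul, ES.coeff_liftSer, frobenius_def]
  · rw [BAD.expandL_coeff_of_not_dvd q _ hd, BAD.expandL_coeff_of_not_dvd q _ hd,
      zero_pow hq.out.ne_zero]

namespace FrobAut

variable (F : FrobAut P)

section

omit hq

/-- The automorphism preserves the integral ring. -/
theorem mem_ring {x : ℂ} (hx : x ∈ P.ring) : F.σ x ∈ P.ring := by
  show P.abv (F.σ x) ≤ 1
  rw [F.abv_eq]
  exact hx

/-- On residues the automorphism is the `q`-th power. -/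
theorem rd_σ (x : P.ring) : rd (P := P) ⟨F.σ x, F.mem_ring x.2⟩ = rd x ^ q := by
  rw [← map_pow, ← sub_eq_zero, ← map_sub, PSEMI.rd_eq_zero_iff]
  exact F.frob _ x.2

/-- The automorphism preserves integrality of series. -/
theorem serIn_mapSer {s : LaurentSeries ℂ} (hs : SerIn P.ring s) :
    SerIn P.ring (mapSer (F.σ : ℂ →+* ℂ) s) := fun n => F.mem_ring (hs n)

end

variable (haux : AuxLevel M m) (hM : M.Coprime q)
include haux hM

end FrobAut

end FermatAgent.BAD.New
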